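/-
S25, block ALGCHARTS, shared sub-lemma SH3 (helper970): the sections `sec x n G` of the twist
`G(n E₀)` in the frozen language of `H11/ACDefs.lean`, and their base change.

For a curve chart `hC : IsCurveChart k B₀ B₁ B₀₁ x y e` and a gluing datum `G` over `A`:

* `tcech_eq_twistE_cech`, `tcech_eq_d`, `sec_eq_twistE_H0`, `sec_eq_H0`, `P0_iff_*` :
  `tcech x n G` is the Čech differential of helper10's twist `twistE G n` and the twisted
  differential `d n` of helper250's adapter `chartCechOps hC G`.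
* `finite_coker_tcech` : the cokernel of `tcech x n G` is a finitely generated `A`-module.
* `sec_finite_projective` : under `P0`, `tcech x n G` has an `A`-linear section and `sec x n G`
  is a finitely generated projective `A`-module.
* `tcech_baseChangeMaps` : base-change maps commute with `tcech`.
* `secMap ψ bm n : sec x n G →ₛₗ[ψ] sec x n G'`, `secMap_coe`.
* `P0_of_baseChangeMaps`, `P0_of_isBC` : `P0` is stable under base change.
* `secMap_isSemilinearBaseChange` : under `P0`, `sec x n G' = A' ⊗[A] sec x n G`.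
* `mem_span_secMap` : under `P0`, every section of `G'(n)` is an `A'`-linear combination of
  images of sections of `G(n)`.
* `rankAtStalk_sec_eq` : under `P0`, `rank_{p'} sec G' = rank_{ψ⁻¹ p'} sec G`.
-/
import Fermat.Agent.S25.H11.ACDefs
import Fermat.Agent.S25.H250.AdapterTwist
import Fermat.Agent.S25.H310.DegreeD2
import Fermat.Agent.S25.H370.CechK6Full

set_option autoImplicit false

universe u

open scoped TensorProduct

namespace Fermat.Agent.S25.H970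

open Fermat.Agent.S25 Fermat.Agent.S25.H10 Fermat.Agent.S25.H11 Fermat.Agent.S25.H250

variable {k : Type u} [Field k] {B₀ B₁ B₀₁ : Type u} [CommRing B₀] [CommRing B₁] [CommRing B₀₁]
  [Algebra k B₀] [Algebra k B₁] [Algebra k B₀₁] [Algebra B₀ B₀₁] [Algebra B₁ B₀₁]
  [IsScalarTower k B₀ B₀₁] [IsScalarTower k B₁ B₀₁]
  {x : B₀} {y : B₁} {e : B₁ →ₐ[k] k}

section One

variable {A : Type u} [CommRing A] [Algebra k A]

omit [Algebra k B₀] [Algebra k B₁] [IsScalarTower k B₀ B₀₁] [IsScalarTower k B₁ B₀₁] in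
theorem xUnit_zpow_natCast_val (hxy : algebraMap B₀ B₀₁ x * algebraMap B₁ B₀₁ y = 1) (n : ℕ) :
    (((xUnit x y hxy A) ^ (n : ℤ) : (A ⊗[k] B₀₁)ˣ) : A ⊗[k] B₀₁) = xElt k B₀₁ A x ^ n := by
  rw [zpow_natCast, Units.val_pow_eq_pow_val]
  rfl

/-- `tcech x n G` is the Čech differential of the twist `G(n)`. -/
theorem tcech_eq_twistE_cech (hxy : algebraMap B₀ B₀₁ x * algebraMap B₁ B₀₁ y = 1) (n : ℕ)
    (G : CurveGD k B₀ B₁ B₀₁ A) :
    tcech x n G = ((twistE x y hxy G (n : ℤ)).cech : (G.N₀ × G.N₁) →ₗ[A] G.N₀₁) := by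
  apply LinearMap.ext
  rintro ⟨a, b⟩
  rw [tcech_apply]
  have h := gdTwist_cech_apply G (xUnit x y hxy A ^ (n : ℤ)) a b
  rw [xUnit_zpow_natCast_val hxy n] at h
  exact h.symm

theorem sec_eq_twistE_H0 (hxy : algebraMap B₀ B₀₁ x * algebraMap B₁ B₀₁ y = 1) (n : ℕ)
    (G : CurveGD k B₀ B₁ B₀₁ A) :
    sec x n G = ((twistE x y hxy G (n : ℤ)).H0 : Submodule A (G.N₀ × G.N₁)) :=
  congrArg LinearMap.ker (tcech_eq_twistE_cech hxy n G)

theorem P0_iff_twistE_cech_surjective (hxy : algebraMap B₀ B₀₁ x * algebraMap B₁ B₀₁ y = 1)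
    (n : ℕ) (G : CurveGD k B₀ B₁ B₀₁ A) :
    P0 x n G ↔ Function.Surjective
      ((twistE x y hxy G (n : ℤ)).cech : (G.N₀ × G.N₁) →ₗ[A] G.N₀₁) := by
  unfold P0
  rw [tcech_eq_twistE_cech hxy n G]
  exact Iff.rfl

/-- `tcech x n G` is the `n`-fold twisted differential of the operator-style adapter. -/
theorem tcech_eq_d (hC : IsCurveChart k B₀ B₁ B₀₁ x y e) (n : ℕ) (G : CurveGD k B₀ B₁ B₀₁ A) :
    tcech x n G = (chartCechOps hC G).d n :=
  (tcech_eq_twistE_cech hC.mul_eq_one n G).trans (chartCechOps_twistE_cech hC G n)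

theorem sec_eq_H0 (hC : IsCurveChart k B₀ B₁ B₀₁ x y e) (n : ℕ) (G : CurveGD k B₀ B₁ B₀₁ A) :
    sec x n G = (chartCechOps hC G).H0 n :=
  congrArg LinearMap.ker (tcech_eq_d hC n G)

theorem P0_iff_d_surjective (hC : IsCurveChart k B₀ B₁ B₀₁ x y e) (n : ℕ)
    (G : CurveGD k B₀ B₁ B₀₁ A) :
    P0 x n G ↔ Function.Surjective ((chartCechOps hC G).d n) := by
  unfold P0
  rw [tcech_eq_d hC n G]

/-- `H¹(G(n E₀))` is a finitely generated `A`-module (over any base ring `A`). -/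
theorem finite_coker_tcech (hC : IsCurveChart k B₀ B₁ B₀₁ x y e) (n : ℕ)
    (G : CurveGD k B₀ B₁ B₀₁ A) :
    Module.Finite A (G.N₀₁ ⧸ LinearMap.range (tcech x n G)) := by
  rw [tcech_eq_d hC n G]
  exact H790.H1_finite (chartCechOps hC G) (H10.isFG_of_isFGProj (isFGProj_X0 hC G)) n

/-- Under `P0` the twisted differential has an `A`-linear section and `H⁰(G(n E₀))` is a
finitely generated projective `A`-module. -/
theorem sec_finite_projective (hC : IsCurveChart k B₀ B₁ B₀₁ x y e) (n : ℕ)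
    (G : CurveGD k B₀ B₁ B₀₁ A) (h0 : P0 x n G) :
    (∃ σ : G.N₀₁ →ₗ[A] G.N₀ × G.N₁, tcech x n G ∘ₗ σ = LinearMap.id) ∧
      Module.Finite A (sec x n G) ∧ Module.Projective A (sec x n G) := by
  have h := H370.H0_finite_projective_of_surjective (chartCechOps hC G) (isFGProj_X0 hC G)
    (isFGProj_Y1 hC G) (r0_injective hC G) (r1_injective hC G) n
    ((P0_iff_d_surjective hC n G).mp h0)
  rw [sec_eq_H0 hC n G, tcech_eq_d hC n G]
  exact h

theorem sec_finite (hC : IsCurveChart k B₀ B₁ B₀₁ x y e) (n : ℕ)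
    (G : CurveGD k B₀ B₁ B₀₁ A) (h0 : P0 x n G) : Module.Finite A (sec x n G) :=
  (sec_finite_projective hC n G h0).2.1

theorem sec_projective (hC : IsCurveChart k B₀ B₁ B₀₁ x y e) (n : ℕ)
    (G : CurveGD k B₀ B₁ B₀₁ A) (h0 : P0 x n G) : Module.Projective A (sec x n G) :=
  (sec_finite_projective hC n G h0).2.2

/-- Large twists kill `H¹`, over any base ring (K2 through the adapter). -/
theorem exists_forall_P0 (hC : IsCurveChart k B₀ B₁ B₀₁ x y e) (G : CurveGD k B₀ B₁ B₀₁ A) :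
    ∃ n₀ : ℕ, ∀ n, n₀ ≤ n → P0 x n G := by
  obtain ⟨n₀, h⟩ := H790.exists_forall_d_surjective (chartCechOps hC G)
    (H10.isFG_of_isFGProj (isFGProj_X0 hC G))
  exact ⟨n₀, fun n hn => (P0_iff_d_surjective hC n G).mpr (h n hn)⟩

end One

section BC

variable {A A' : Type u} [CommRing A] [Algebra k A] [CommRing A'] [Algebra k A']

omit [Algebra k B₀] [IsScalarTower k B₀ B₀₁] in
theorem tensorMapLeft_xElt (ψ : A →ₐ[k] A') (x : B₀) :
    tensorMapLeft k ψ B₀₁ (xElt k B₀₁ A x) = xElt k B₀₁ A' x := by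
  simp [tensorMapLeft, xElt]

/-- Base-change maps commute with the twisted Čech differentials. -/
theorem tcech_baseChangeMaps (ψ : A →ₐ[k] A') {G : CurveGD k B₀ B₁ B₀₁ A}
    {G' : CurveGD k B₀ B₁ B₀₁ A'}
    (bm : GlueDatum.BaseChangeMaps (tensorMapLeft k ψ B₀) (tensorMapLeft k ψ B₁)
      (tensorMapLeft k ψ B₀₁) G G') (x : B₀) (n : ℕ) (p : G.N₀ × G.N₁) :
    bm.b₀₁ (tcech x n G p) = tcech x n G' (bm.b₀ p.1, bm.b₁ p.2) := by
  rw [tcech_apply, tcech_apply, map_sub, LinearMap.map_smulₛₗ, map_pow, tensorMapLeft_xElt,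
    bm.comm₀, bm.comm₁]

/-- The base-change maps of the twists `G(n) → G'(n)` (same underlying maps). -/
def twistBCMaps (hxy : algebraMap B₀ B₀₁ x * algebraMap B₁ B₀₁ y = 1) (ψ : A →ₐ[k] A')
    {G : CurveGD k B₀ B₁ B₀₁ A} {G' : CurveGD k B₀ B₁ B₀₁ A'}
    (bm : GlueDatum.BaseChangeMaps (tensorMapLeft k ψ B₀) (tensorMapLeft k ψ B₁)
      (tensorMapLeft k ψ B₀₁) G G') (n : ℕ) :
    GlueDatum.BaseChangeMaps (tensorMapLeft k ψ B₀) (tensorMapLeft k ψ B₁)
      (tensorMapLeft k ψ B₀₁) (twistE x y hxy G (n : ℤ)) (twistE x y hxy G' (n : ℤ)) where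
  b₀ := bm.b₀
  b₁ := bm.b₁
  b₀₁ := bm.b₀₁
  comm₀ := bm.comm₀
  comm₁ := fun s => by
    change bm.b₀₁ (((xUnit x y hxy A ^ (n : ℤ) : (A ⊗[k] B₀₁)ˣ) : A ⊗[k] B₀₁) • G.r₁ s) =
      ((xUnit x y hxy A' ^ (n : ℤ) : (A' ⊗[k] B₀₁)ˣ) : A' ⊗[k] B₀₁) • G'.r₁ (bm.b₁ s)
    rw [xUnit_zpow_natCast_val hxy n, xUnit_zpow_natCast_val hxy n, LinearMap.map_smulₛₗ,
      map_pow, tensorMapLeft_xElt, bm.comm₁]
  isBaseChange₀ := bm.isBaseChange₀
  isBaseChange₁ := bm.isBaseChange₁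
  isBaseChange₀₁ := bm.isBaseChange₀₁

/-- The `ψ`-semilinear map between kernels induced by base-change maps commuting with two
differentials `c`, `c'` (general form, used to transport along `tcech = twisted cech`). -/
def kerMap (ψ : A →ₐ[k] A') {G : CurveGD k B₀ B₁ B₀₁ A} {G' : CurveGD k B₀ B₁ B₀₁ A'}
    (bm : GlueDatum.BaseChangeMaps (tensorMapLeft k ψ B₀) (tensorMapLeft k ψ B₁)
      (tensorMapLeft k ψ B₀₁) G G')
    (c : (G.N₀ × G.N₁) →ₗ[A] G.N₀₁) (c' : (G'.N₀ × G'.N₁) →ₗ[A'] G'.N₀₁)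
    (hc : ∀ p, bm.b₀₁ (c p) = c' (bm.b₀ p.1, bm.b₁ p.2)) :
    LinearMap.ker c →ₛₗ[ψ.toRingHom] LinearMap.ker c' where
  toFun s := ⟨(bm.b₀ s.1.1, bm.b₁ s.1.2), by
    rw [LinearMap.mem_ker, ← hc, LinearMap.mem_ker.mp s.2, map_zero]⟩
  map_add' s t := by
    apply Subtype.ext
    simp
  map_smul' a s := by
    apply Subtype.ext
    have h₀ : bm.b₀ (a • s.1.1) = ψ a • bm.b₀ s.1.1 := by
      rw [← algebraMap_smul (A ⊗[k] B₀) a s.1.1, bm.b₀.map_smulₛₗ, tensorMapLeft_algebraMap,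
        algebraMap_smul]
    have h₁ : bm.b₁ (a • s.1.2) = ψ a • bm.b₁ s.1.2 := by
      rw [← algebraMap_smul (A ⊗[k] B₁) a s.1.2, bm.b₁.map_smulₛₗ, tensorMapLeft_algebraMap,
        algebraMap_smul]
    simp [h₀, h₁]

/-- The `ψ`-semilinear map `H⁰(G(n E₀)) → H⁰(G'(n E₀))` induced by base-change maps. -/
def secMap (ψ : A →ₐ[k] A') {G : CurveGD k B₀ B₁ B₀₁ A} {G' : CurveGD k B₀ B₁ B₀₁ A'}
    (bm : GlueDatum.BaseChangeMaps (tensorMapLeft k ψ B₀) (tensorMapLeft k ψ B₁)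
      (tensorMapLeft k ψ B₀₁) G G') (x : B₀) (n : ℕ) :
    sec x n G →ₛₗ[ψ.toRingHom] sec x n G' :=
  kerMap ψ bm (tcech x n G) (tcech x n G') (tcech_baseChangeMaps ψ bm x n)

@[simp] theorem secMap_coe (ψ : A →ₐ[k] A') {G : CurveGD k B₀ B₁ B₀₁ A}
    {G' : CurveGD k B₀ B₁ B₀₁ A'}
    (bm : GlueDatum.BaseChangeMaps (tensorMapLeft k ψ B₀) (tensorMapLeft k ψ B₁)
      (tensorMapLeft k ψ B₀₁) G G') (x : B₀) (n : ℕ) (s : sec x n G) :
    ((secMap ψ bm x n s : sec x n G') : G'.N₀ × G'.N₁) =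
      (bm.b₀ (s : G.N₀ × G.N₁).1, bm.b₁ (s : G.N₀ × G.N₁).2) := rfl

/-- `P0` is stable under base change (base-change-maps form). -/
theorem P0_of_baseChangeMaps (hxy : algebraMap B₀ B₀₁ x * algebraMap B₁ B₀₁ y = 1)
    (ψ : A →ₐ[k] A') {G : CurveGD k B₀ B₁ B₀₁ A} {G' : CurveGD k B₀ B₁ B₀₁ A'}
    (bm : GlueDatum.BaseChangeMaps (tensorMapLeft k ψ B₀) (tensorMapLeft k ψ B₁)
      (tensorMapLeft k ψ B₀₁) G G') (n : ℕ) (h0 : P0 x n G) : P0 x n G' := by
  rw [P0_iff_twistE_cech_surjective hxy] at h0 ⊢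
  exact H310.cech_surjective_of_isBC' ψ ⟨twistBCMaps hxy ψ bm n⟩ h0

/-- `P0` is stable under base change. -/
theorem P0_of_isBC (hxy : algebraMap B₀ B₀₁ x * algebraMap B₁ B₀₁ y = 1)
    (ψ : A →ₐ[k] A') {G : CurveGD k B₀ B₁ B₀₁ A} {G' : CurveGD k B₀ B₁ B₀₁ A'}
    (h : CurveGD.IsBC ψ G G') (n : ℕ) (h0 : P0 x n G) : P0 x n G' := by
  obtain ⟨bm⟩ := h
  exact P0_of_baseChangeMaps hxy ψ bm n h0

/-- Transport lemma: `kerMap` for differentials equal to the Čech differentials of two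
gluing data is a base change as soon as the first differential is onto. -/
theorem kerMap_isSemilinearBaseChange (hC : IsCurveChart k B₀ B₁ B₀₁ x y e)
    (ψ : A →ₐ[k] A') {G : CurveGD k B₀ B₁ B₀₁ A} {G' : CurveGD k B₀ B₁ B₀₁ A'}
    (bm : GlueDatum.BaseChangeMaps (tensorMapLeft k ψ B₀) (tensorMapLeft k ψ B₁)
      (tensorMapLeft k ψ B₀₁) G G')
    (c : (G.N₀ × G.N₁) →ₗ[A] G.N₀₁) (c' : (G'.N₀ × G'.N₁) →ₗ[A'] G'.N₀₁)
    (hc : ∀ p, bm.b₀₁ (c p) = c' (bm.b₀ p.1, bm.b₁ p.2))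
    (hcG : c = G.cech) (hcG' : c' = G'.cech) (hs : Function.Surjective c) :
    IsSemilinearBaseChange ψ.toRingHom (kerMap ψ bm c c' hc) := by
  subst hcG
  subst hcG'
  exact H310.D2.mapH0_isBaseChange hC ψ bm hs

/-- **SH3.** Under `P0`, the sections of `G'(n E₀)` are the base change of the sections of
`G(n E₀)`, for every base change `G'` of `G`. -/
theorem secMap_isSemilinearBaseChange (hC : IsCurveChart k B₀ B₁ B₀₁ x y e)
    (ψ : A →ₐ[k] A') {G : CurveGD k B₀ B₁ B₀₁ A} {G' : CurveGD k B₀ B₁ B₀₁ A'}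
    (bm : GlueDatum.BaseChangeMaps (tensorMapLeft k ψ B₀) (tensorMapLeft k ψ B₁)
      (tensorMapLeft k ψ B₀₁) G G') (n : ℕ) (h0 : P0 x n G) :
    IsSemilinearBaseChange ψ.toRingHom (secMap ψ bm x n) :=
  kerMap_isSemilinearBaseChange (G := twistE x y hC.mul_eq_one G (n : ℤ))
    (G' := twistE x y hC.mul_eq_one G' (n : ℤ)) hC ψ (twistBCMaps hC.mul_eq_one ψ bm n)
    (tcech x n G) (tcech x n G') (tcech_baseChangeMaps ψ bm x n)
    (tcech_eq_twistE_cech hC.mul_eq_one n G) (tcech_eq_twistE_cech hC.mul_eq_one n G') h0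

/-- **SH3, elementwise form.** Under `P0`, every section of `G'(n E₀)` is an `A'`-linear
combination of images of sections of `G(n E₀)`. -/
theorem mem_span_secMap (hC : IsCurveChart k B₀ B₁ B₀₁ x y e)
    (ψ : A →ₐ[k] A') {G : CurveGD k B₀ B₁ B₀₁ A} {G' : CurveGD k B₀ B₁ B₀₁ A'}
    (bm : GlueDatum.BaseChangeMaps (tensorMapLeft k ψ B₀) (tensorMapLeft k ψ B₁)
      (tensorMapLeft k ψ B₀₁) G G') (n : ℕ) (h0 : P0 x n G) (t : sec x n G') :
    t ∈ Submodule.span A' (Set.range (secMap ψ bm x n)) := by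
  have h := secMap_isSemilinearBaseChange hC ψ bm n h0
  unfold IsSemilinearBaseChange at h
  let : Algebra A A' := ψ.toRingHom.toAlgebra
  let : Module A (sec x n G') := Module.compHom (sec x n G') ψ.toRingHom
  have : IsScalarTower A A' (sec x n G') := ⟨fun r r' m => by
    change (ψ.toRingHom r * r') • m = ψ.toRingHom r • (r' • m)
    rw [mul_smul]⟩
  refine IsBaseChange.inductionOn h t
    (fun t => t ∈ Submodule.span A' (Set.range (secMap ψ bm x n)))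
    (Submodule.zero_mem _) (fun m => Submodule.subset_span ⟨m, rfl⟩)
    (fun s m hm => Submodule.smul_mem _ s hm) (fun _ _ h1 h2 => Submodule.add_mem _ h1 h2)

/-- **SH3, elementwise form in the ambient module.** -/
theorem mem_span_image_of_mem_sec (hC : IsCurveChart k B₀ B₁ B₀₁ x y e)
    (ψ : A →ₐ[k] A') {G : CurveGD k B₀ B₁ B₀₁ A} {G' : CurveGD k B₀ B₁ B₀₁ A'}
    (bm : GlueDatum.BaseChangeMaps (tensorMapLeft k ψ B₀) (tensorMapLeft k ψ B₁)
      (tensorMapLeft k ψ B₀₁) G G') (n : ℕ) (h0 : P0 x n G) (t : G'.N₀ × G'.N₁)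
    (ht : t ∈ sec x n G') :
    t ∈ Submodule.span A' {t' : G'.N₀ × G'.N₁ | ∃ s ∈ sec x n G, t' = (bm.b₀ s.1, bm.b₁ s.2)} := by
  have h := mem_span_secMap hC ψ bm n h0 ⟨t, ht⟩
  have h2 := Submodule.mem_map_of_mem (f := (sec x n G').subtype) h
  rw [Submodule.map_span] at h2
  refine Submodule.span_mono ?_ h2
  rintro _ ⟨_, ⟨s, rfl⟩, rfl⟩
  exact ⟨s.1, s.2, rfl⟩

/-- **SH3, ranks.** Under `P0`, `rank_{p'} H⁰(G'(n E₀)) = rank_{ψ⁻¹ p'} H⁰(G(n E₀))`. -/
theorem rankAtStalk_sec_eq (hC : IsCurveChart k B₀ B₁ B₀₁ x y e)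
    (ψ : A →ₐ[k] A') {G : CurveGD k B₀ B₁ B₀₁ A} {G' : CurveGD k B₀ B₁ B₀₁ A'}
    (bm : GlueDatum.BaseChangeMaps (tensorMapLeft k ψ B₀) (tensorMapLeft k ψ B₁)
      (tensorMapLeft k ψ B₀₁) G G') (n : ℕ) (h0 : P0 x n G) (p' : PrimeSpectrum A') :
    Module.rankAtStalk (R := A') (sec x n G') p' =
      Module.rankAtStalk (R := A) (sec x n G) (PrimeSpectrum.comap ψ.toRingHom p') := by
  have h := secMap_isSemilinearBaseChange hC ψ bm n h0
  unfold IsSemilinearBaseChange at h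
  have hfin := sec_finite hC n G h0
  have hproj := sec_projective hC n G h0
  let : Algebra A A' := ψ.toRingHom.toAlgebra
  let : Module A (sec x n G') := Module.compHom (sec x n G') ψ.toRingHom
  have : IsScalarTower A A' (sec x n G') := ⟨fun r r' m => by
    change (ψ.toRingHom r * r') • m = ψ.toRingHom r • (r' • m)
    rw [mul_smul]⟩
  exact Module.rankAtStalk_isBaseChange h p'

end BC

end Fermat.Agent.S25.H970
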