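/-
S25, block CECH (squad S25/S10), leaf K4 (helper970): Nakayama on `H¹`.

* `exists_notMem_smul_mem_range_of_finite` : general form.  For an `A`-linear map `f : M → N`
  with finitely generated cokernel and a prime `p` of `A` such that `κ(p) ⊗ f` is surjective,
  some `a ∉ p` kills the cokernel of `f`.
* `range_d_eq`, `H1_finite` : the range of the twisted Čech differential and finiteness of
  `H¹(L(m∞))` (from the E1 hand-in of helper790).
* `exists_notMem_smul_mem_range` : leaf K4, exactly as in `CechSkel.lean`.
* `exists_notMem_forall_d_surjective_localization` style corollaries: see below.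
-/
import Fermat.Agent.S25.H10.CechDefs
import Fermat.Agent.S25.H790.CechE1

set_option autoImplicit false

namespace Fermat.Agent.S25.H970

open TensorProduct Fermat.Agent.S25.H10

universe u v

variable {A : Type u} [CommRing A]

/-- If the cokernel of `f` is finitely generated and `κ(p) ⊗ f` is surjective, then some
`a ∉ p` kills the cokernel of `f`. -/
theorem exists_notMem_smul_mem_range_of_finite {M N : Type*}
    [AddCommGroup M] [AddCommGroup N] [Module A M] [Module A N]
    (f : M →ₗ[A] N) (hfin : Module.Finite A (N ⧸ LinearMap.range f))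
    (p : Ideal A) [hpp : p.IsPrime]
    (hp : Function.Surjective (f.baseChange p.ResidueField)) :
    ∃ a : A, a ∉ p ∧ ∀ z : N, a • z ∈ LinearMap.range f := by
  have hq : Function.Surjective ((LinearMap.range f).mkQ.baseChange p.ResidueField) :=
    LinearMap.lTensor_surjective _ (Submodule.mkQ_surjective _)
  have hzero : (LinearMap.range f).mkQ ∘ₗ f = 0 := by
    ext x
    simp
  have hsub : Subsingleton (p.ResidueField ⊗[A] (N ⧸ LinearMap.range f)) := by
    have h0 : ∀ x : p.ResidueField ⊗[A] (N ⧸ LinearMap.range f), x = 0 := by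
      intro x
      obtain ⟨x', rfl⟩ := hq x
      obtain ⟨x'', rfl⟩ := hp x'
      rw [← LinearMap.comp_apply, ← LinearMap.baseChange_comp, hzero, LinearMap.baseChange_zero,
        LinearMap.zero_apply]
    exact ⟨fun x y => by rw [h0 x, h0 y]⟩
  have hnot : (⟨p, hpp⟩ : PrimeSpectrum A) ∉ Module.support A (N ⧸ LinearMap.range f) := by
    rw [Module.mem_support_iff_nontrivial_residueField_tensorProduct]
    exact not_nontrivial _
  rw [Module.mem_support_iff_of_finite] at hnot
  obtain ⟨a, ha, hap⟩ := SetLike.not_le_iff_exists.mp hnot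
  refine ⟨a, hap, fun z => ?_⟩
  have h := Module.mem_annihilator.mp ha (Submodule.Quotient.mk z)
  rwa [← Submodule.Quotient.mk_smul, Submodule.Quotient.mk_eq_zero] at h

variable {N0 N1 N01 : Type v}
  [AddCommGroup N0] [AddCommGroup N1] [AddCommGroup N01]
  [Module A N0] [Module A N1] [Module A N01]

/-- The range of the twisted differential. -/
theorem range_d_eq (D : CechOps A N0 N1 N01) (m : ℕ) :
    LinearMap.range (D.d m) =
      LinearMap.range D.r0 ⊔ LinearMap.range ((D.T ^ m) ∘ₗ D.r1) := by
  rw [CechOps.d, LinearMap.range_coprod, LinearMap.range_neg]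

/-- K2a, re-derived here from E1 (helper790): `H¹(L(m∞))` is a finitely generated `A`-module. -/
theorem H1_finite (D : CechOps A N0 N1 N01) (h0 : IsFG D.X0) (m : ℕ) :
    Module.Finite A (D.H1 m) := by
  obtain ⟨s0, hs0⟩ := h0
  have hcomm : ∀ z, (D.T ^ m) (D.Tinv z) = D.Tinv ((D.T ^ m) z) := by
    intro z
    have h : Commute (D.T ^ m) D.Tinv := (D.commute_T_Tinv).pow_left m
    exact congrArg (fun e : Module.End A N01 => e z) h.eq
  have key := Fermat.Agent.S25.H790.cechH1_finite_core (A := A) D.X0 D.Y1 D.T D.Tinv
    D.T_mul_Tinv D.Tinv_mul_T D.r0 ((D.T ^ m) ∘ₗ D.r1) D.r0_X0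
    (by
      intro n
      simp only [LinearMap.coe_comp, Function.comp_apply]
      rw [D.r1_Y1, hcomm])
    s0 hs0 D.loc0
    (by
      intro z
      obtain ⟨k, n, hk⟩ := D.loc1 z
      refine ⟨k, (D.Y1 ^ m) n, ?_⟩
      simp only [LinearMap.coe_comp, Function.comp_apply]
      rw [D.r1_Y1_pow, D.T_pow_Tinv_pow_apply, hk])
  show Module.Finite A (N01 ⧸ LinearMap.range (D.d m))
  rw [range_d_eq]
  exact key

/-- **K4.** If `H¹` vanishes after base change to the residue field at a prime `p`, it vanishes
after inverting some `f ∉ p`; elementary form: `f • z ∈ range (d m)` for all `z`. -/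
theorem exists_notMem_smul_mem_range (D : CechOps A N0 N1 N01) (h0 : IsFG D.X0) (m : ℕ)
    (p : Ideal A) [p.IsPrime]
    (hp : Function.Surjective ((D.d m).baseChange p.ResidueField)) :
    ∃ f : A, f ∉ p ∧ ∀ z : N01, f • z ∈ LinearMap.range (D.d m) :=
  exists_notMem_smul_mem_range_of_finite (D.d m) (H1_finite D h0 m) p hp

end Fermat.Agent.S25.H970
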